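/-
Rigidifications along a section, and uniqueness of rigidified isomorphisms.
-/
import Fermat.Agent.Picard.Modules.OpenImm

set_option autoImplicit false

universe u

open CategoryTheory CategoryTheory.Limits AlgebraicGeometry TopologicalSpace Opposite

namespace Fermat.Agent.Picard

noncomputable section

variable {X T : Scheme.{u}}

/-- Being a unit is local. -/
lemma isUnit_of_cover {U : T.Opens} {ι : Type*} (V : ι → T.Opens) (hV : ∀ i, V i ≤ U)
    (hc : U ≤ ⨆ i, V i) (r : Γ(T, U)) (h : ∀ i, IsUnit (ores T (hV i) r)) : IsUnit r := by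
  choose b hb using fun i ↦ isUnit_iff_exists_inv.1 (h i)
  obtain ⟨s, hs⟩ : ∃ s : Γ(T, U), ∀ i, ores T (hV i) s = b i :=
    (T.sheaf.existsUnique_gluing' V U (fun i ↦ homOfLE (hV i)) hc b fun i j ↦ by
      change ores T (inf_le_left : V i ⊓ V j ≤ V i) (b i) = ores T inf_le_right (b j)
      have e1 := congrArg (ores T (inf_le_left : V i ⊓ V j ≤ V i)) (hb i)
      have e2 := congrArg (ores T (inf_le_right : V i ⊓ V j ≤ V j)) (hb j)
      simp only [map_mul, map_one, ores_ores] at e1 e2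
      calc ores T (inf_le_left : V i ⊓ V j ≤ V i) (b i)
          = ores T inf_le_left (b i) * (ores T (inf_le_right.trans (hV j)) r * ores T inf_le_right (b j)) := by
            rw [e2, mul_one]
        _ = (ores T (inf_le_left.trans (hV i)) r * ores T inf_le_left (b i)) *
              ores T inf_le_right (b j) := by ring
        _ = ores T inf_le_right (b j) := by rw [e1, one_mul]).exists
  refine IsUnit.of_mul_eq_one s (T.sheaf.eq_of_locally_eq' V U (fun i ↦ homOfLE (hV i)) hc _ _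
    fun i ↦ ?_)
  change ores T (hV i) (r * s) = ores T (hV i) 1
  rw [map_mul, hs, hb, map_one]

/-- Two functions agreeing locally are equal. -/
lemma fun_ext {U : T.Opens} {ι : Type*} (V : ι → T.Opens) (hV : ∀ i, V i ≤ U)
    (hc : U ≤ ⨆ i, V i) {r r' : Γ(T, U)} (h : ∀ i, ores T (hV i) r = ores T (hV i) r') : r = r' :=
  T.sheaf.eq_of_locally_eq' V U (fun i ↦ homOfLE (hV i)) hc _ _ h

variable (e : T ⟶ X)

lemma ores_appLE {U : X.Opens} {W W' : T.Opens} (h : W ≤ e ⁻¹ᵁ U) (h' : W' ≤ W) (f : Γ(X, U)) :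
    ores T h' ((e.appLE U W h).hom f) = (e.appLE U W' (h'.trans h)).hom f := by
  rw [← RingHom.comp_apply]
  exact congrArg (fun φ ↦ φ.hom f) (e.appLE_map h (homOfLE h').op)

lemma appLE_ores {U U' : X.Opens} {W : T.Opens} (hU : U' ≤ U) (h : W ≤ e ⁻¹ᵁ U') (f : Γ(X, U)) :
    (e.appLE U' W h).hom (ores X hU f) = (e.appLE U W (h.trans (e.preimage_mono hU))).hom f := by
  rw [← RingHom.comp_apply]
  exact congrArg (fun φ ↦ φ.hom f) (e.map_appLE h (homOfLE hU).op)

/-- The target of rigidifications. -/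
abbrev epsTarget : X.Modules := (Scheme.Modules.pushforward e).obj (OO T)

/-- A section of the target as a function on the source. -/
def epsVal {V : X.Opens} (x : Γ(epsTarget e, V)) : Γ(T, e ⁻¹ᵁ V) := x

/-- A function on the source as a section of the target. -/
def ofEps {V : X.Opens} (x : Γ(T, e ⁻¹ᵁ V)) : Γ(epsTarget e, V) := x

lemma epsVal_injective {V : X.Opens} : Function.Injective (epsVal e : Γ(epsTarget e, V) → _) :=
  fun _ _ h ↦ h

@[simp] lemma epsVal_smul {V : X.Opens} (r : Γ(X, V)) (x : Γ(epsTarget e, V)) :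
    epsVal e (r • x) = (e.appLE V (e ⁻¹ᵁ V) le_rfl).hom r * epsVal e x := by
  rw [Scheme.Hom.appLE_eq_app]
  rfl

@[simp] lemma epsVal_mres {V W : X.Opens} (h : W ≤ V) (x : Γ(epsTarget e, V)) :
    epsVal e (mres (epsTarget e) h x) = ores T (e.preimage_mono h) (epsVal e x) := rfl

variable {P Q : X.Modules}

/-- A rigidification over an open: frames go to units. -/
def IsRig {U : X.Opens} (ρ : HomOn P (epsTarget e) U) : Prop :=
  ∀ V h (s : Γ(P, V)), IsFrame P s → IsUnit (epsVal e (ρ.app V h s))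

variable {e}

lemma IsRig.res {U U' : X.Opens} {ρ : HomOn P (epsTarget e) U} (hρ : IsRig e ρ) (h : U' ≤ U) :
    IsRig e (ρ.res h) := fun V _ s hs ↦ hρ V _ s hs

lemma IsRig.comp {U : X.Opens} {α : HomOn P Q U} (hα : α.IsIso) {σ : HomOn Q (epsTarget e) U}
    (hσ : IsRig e σ) : IsRig e (α.comp σ) := fun V h _ hs ↦ hσ V h _ (hα.map_frame h hs)

/-- Being a rigidification is local. -/
lemma isRig_of_cover {U : X.Opens} (ρ : HomOn P (epsTarget e) U) {ι : Type*} (W : ι → X.Opens)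
    (hW : ∀ i, W i ≤ U) (hc : U ≤ ⨆ i, W i) (h : ∀ i, IsRig e (ρ.res (hW i))) : IsRig e ρ :=
  fun V hV s hs ↦ by
    refine isUnit_of_cover (fun i ↦ e ⁻¹ᵁ (V ⊓ W i)) (fun i ↦ e.preimage_mono inf_le_left)
      (fun t ht ↦ ?_) _ fun i ↦ ?_
    · obtain ⟨i, hi⟩ := Opens.mem_iSup.1 (hc (hV ht))
      exact Opens.mem_iSup.2 ⟨i, ht, hi⟩
    · rw [← epsVal_mres e (inf_le_left : V ⊓ W i ≤ V), ← ρ.map_res V hV _ inf_le_left]
      exact h i _ inf_le_right _ (hs.mono _)

/-- A trivialisation along `e` gives a rigidification. -/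
lemma exists_rig {M : X.Modules} (hM : Scheme.Modules.IsInvertible M)
    (r : (Scheme.Modules.pullback e).obj M ≅ OO T) :
    ∃ ρ : HomOn M (epsTarget e) ⊤, IsRig e ρ := by
  refine ⟨HomOn.ofHom (((Scheme.Modules.pullbackPushforwardAdjunction e).homEquiv M (OO T)) r.hom) ⊤,
    fun V _ s hs ↦ ?_⟩
  have e1 := app_homEquiv e M r.hom s
  change IsUnit (toFun (((Scheme.Modules.pullbackPushforwardAdjunction e).homEquiv M (OO T) r.hom).app V s))
  rw [e1]
  have h := (isFrame_one (X := T) (e ⁻¹ᵁ V)).isUnit_coeff ((hs.pullSec e hM).map_iso r.hom)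
  convert h using 1
  refine ((isFrame_one (e ⁻¹ᵁ V)).coeff_eq le_rfl ?_).symm
  apply Function.LeftInverse.injective (g := ofFun) ofFun_toFun
  simp

/-- A rigidification gives a trivialisation along `e`. -/
lemma nonempty_iso_of_rig {M : X.Modules} (hM : Scheme.Modules.IsInvertible M)
    {ρ : HomOn M (epsTarget e) ⊤} (hρ : IsRig e ρ) :
    Nonempty ((Scheme.Modules.pullback e).obj M ≅ OO T) := by
  obtain ⟨φ, hφ⟩ := ρ.exists_hom
  let ψ := ((Scheme.Modules.pullbackPushforwardAdjunction e).homEquiv M (OO T)).symm φ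
  choose U s hx hs using fun y : T ↦ exists_isFrame hM (e y)
  have : IsIso ψ := isIso_of_frames (fun y ↦ e ⁻¹ᵁ U y)
    (eq_top_iff.2 fun y _ ↦ Opens.mem_iSup.2 ⟨y, hx y⟩) ψ (fun y ↦ (hs y).pullSec e hM) fun y ↦ by
      have e1 := app_homEquiv e M ψ (s y)
      rw [Equiv.apply_symm_apply, hφ] at e1
      rw [← e1]
      have h2 : (show Γ(OO T, e ⁻¹ᵁ U y) from ρ.app (U y) le_top (s y)) =
          ((hρ _ le_top _ (hs y)).unit : Γ(T, e ⁻¹ᵁ U y)) • ofFun (1 : Γ(T, e ⁻¹ᵁ U y)) := by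
        apply Function.LeftInverse.injective (g := ofFun) ofFun_toFun
        simp
        rfl
      have h3 := (isFrame_one (e ⁻¹ᵁ U y)).unit_smul (hρ _ le_top _ (hs y)).unit
      rw [← h2] at h3
      exact h3
  exact ⟨asIso ψ⟩

variable {pr : X ⟶ T} (he : e ≫ pr = 𝟙 T)

include he in
lemma preimage_preimage (W : T.Opens) : e ⁻¹ᵁ (pr ⁻¹ᵁ W) = W := by
  rw [← Scheme.Hom.comp_preimage, he, Scheme.Hom.id_preimage]

include he in
lemma appLE_appLE (W : T.Opens) (h : Γ(T, W)) {W' : T.Opens} (hW : W' ≤ W) :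
    (e.appLE (pr ⁻¹ᵁ W) W' (hW.trans (preimage_preimage he W).ge)).hom
      ((pr.appLE W (pr ⁻¹ᵁ W) le_rfl).hom h) = ores T hW h := by
  rw [← RingHom.comp_apply, ← CommRingCat.hom_comp, Scheme.Hom.appLE_comp_appLE]
  have key : ∀ (f : T ⟶ T) (_ : f = 𝟙 T) (hle : W' ≤ f ⁻¹ᵁ W),
      (f.appLE W W' hle).hom h = ores T hW h := by
    rintro f rfl hle
    simp [Scheme.Hom.appLE, ores]
    rfl
  exact key _ he _

/-- Functions on `pr⁻¹ W` are determined by their restriction along the section. -/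
def EpsInjective (e : T ⟶ X) (pr : X ⟶ T) : Prop :=
  ∀ (W : T.Opens) (f : Γ(X, pr ⁻¹ᵁ W)) (h : W ≤ e ⁻¹ᵁ (pr ⁻¹ᵁ W)),
    (e.appLE (pr ⁻¹ᵁ W) W h).hom f = 0 → f = 0

include he in
/-- An isomorphism compatible with rigidifications is unique. -/
lemma eq_of_rig (hK : EpsInjective e pr) {W : T.Opens} {U : X.Opens} (hU : U = pr ⁻¹ᵁ W)
    (hP : InvOn P U) {α β : HomOn P Q U} (hα : α.IsIso) {σ : HomOn Q (epsTarget e) U}
    (hσ : IsRig e σ) (h : α.comp σ = β.comp σ) : α = β := by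
  subst hU
  obtain ⟨f, rfl⟩ := HomOn.exists_eq_smulFun hP hα β
  have hW := (preimage_preimage he W).ge
  have h1 : (e.appLE (pr ⁻¹ᵁ W) W hW).hom f = 1 := by
    choose V s hV hx hs using hP
    refine fun_ext (fun t : W ↦ e ⁻¹ᵁ V (e t.1) (hW t.2))
      (fun t ↦ (e.preimage_mono (hV _ _)).trans (preimage_preimage he W).le)
      (fun t ht ↦ Opens.mem_iSup.2 ⟨⟨t, ht⟩, hx _ (hW ht)⟩) fun t ↦ ?_
    have e1 := congrArg (fun F : HomOn P (epsTarget e) _ ↦
      epsVal e (F.app _ (hV _ (hW t.2)) (s _ (hW t.2)))) h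
    simp only [HomOn.comp_app, HomOn.smulFun_app, HomOn.map_smul, epsVal_smul, appLE_ores] at e1
    rw [map_one, ores_appLE]
    exact (hσ.comp hα _ (hV _ _) _ (hs _ (hW t.2))).mul_eq_right.1 e1.symm
  have hf : f = 1 := sub_eq_zero.1 (hK W (f - 1) hW (by rw [map_sub, map_one, h1, sub_self]))
  ext V hV m
  simp [hf]

include he in
/-- An isomorphism can be made compatible with rigidifications. -/
lemma exists_rig_iso {W : T.Opens} {U : X.Opens} (hU : U = pr ⁻¹ᵁ W) (hP : InvOn P U)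
    {α : HomOn P Q U} (hα : α.IsIso) {ρ : HomOn P (epsTarget e) U} (hρ : IsRig e ρ)
    {σ : HomOn Q (epsTarget e) U} (hσ : IsRig e σ) :
    ∃ α' : HomOn P Q U, α'.IsIso ∧ α'.comp σ = ρ := by
  subst hU
  have hW := (preimage_preimage he W).ge
  let σ' := α.comp σ
  have hσ' : IsRig e σ' := hσ.comp hα
  choose V s hV hx hs using hP
  let W' : W → T.Opens := fun t ↦ e ⁻¹ᵁ V (e t.1) (hW t.2)
  have hW' : ∀ t, W' t ≤ W := fun t ↦
    (e.preimage_mono (hV _ _)).trans (preimage_preimage he W).le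
  have hcov : W ≤ ⨆ t, W' t := fun t ht ↦ Opens.mem_iSup.2 ⟨⟨t, ht⟩, hx _ (hW ht)⟩
  let a : ∀ t : W, Γ(T, W' t) := fun t ↦
    epsVal e (ρ.app _ (hV _ (hW t.2)) (s _ _)) *
      ((hσ' _ (hV _ (hW t.2)) _ (hs _ _)).unit⁻¹ : Γ(T, W' t)ˣ).val
  have ha : ∀ t : W, a t * epsVal e (σ'.app _ (hV _ (hW t.2)) (s _ _)) =
      epsVal e (ρ.app _ (hV _ (hW t.2)) (s _ _)) := fun t ↦ by
    simp only [a]
    rw [mul_assoc, IsUnit.val_inv_mul, mul_one]
  have key : ∀ (t : W) Z (hZ : Z ≤ V _ (hW t.2)) (m : Γ(P, Z)),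
      epsVal e (ρ.app Z (hZ.trans (hV _ _)) m) =
        ores T (e.preimage_mono hZ) (a t) * epsVal e (σ'.app Z (hZ.trans (hV _ _)) m) := by
    intro t Z hZ m
    obtain ⟨r, rfl⟩ := ((hs _ (hW t.2)) Z hZ).2 m
    simp only [HomOn.map_smul, epsVal_smul, ρ.map_res _ (hV _ (hW t.2)) Z hZ,
      σ'.map_res _ (hV _ (hW t.2)) Z hZ, epsVal_mres, ← ha t, map_mul]
    ring
  obtain ⟨f, hf⟩ : ∃ f : Γ(T, W), ∀ t, ores T (hW' t) f = a t :=
    (T.sheaf.existsUnique_gluing' W' W (fun t ↦ homOfLE (hW' t)) hcov a fun t t' ↦ by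
      change ores T (inf_le_left : W' t ⊓ W' t' ≤ W' t) (a t) = ores T inf_le_right (a t')
      let Z := V _ (hW t.2) ⊓ V _ (hW t'.2)
      have hsZ : IsFrame P (mres P (inf_le_left : Z ≤ _) (s _ (hW t.2))) := (hs _ _).mono _
      have e1 := key t Z inf_le_left (mres P inf_le_left (s _ (hW t.2)))
      have e2 := key t' Z inf_le_right (mres P inf_le_left (s _ (hW t.2)))
      exact (hσ' Z (inf_le_left.trans (hV _ _)) _ hsZ).mul_right_cancel (e1.symm.trans e2)).exists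
  have huf : IsUnit f := isUnit_of_cover W' hW' hcov f fun t ↦ by
    rw [hf]
    exact (hρ _ (hV _ _) _ (hs _ _)).mul (Units.isUnit _)
  refine ⟨α.smulFun ((pr.appLE W (pr ⁻¹ᵁ W) le_rfl).hom f),
    hα.smulFun (huf.map _), HomOn.eq_of_frames fun x hxU ↦ ?_⟩
  refine ⟨V x hxU, hV x hxU, s x hxU, hx x hxU, hs x hxU, epsVal_injective e ?_⟩
  simp only [HomOn.comp_app, HomOn.smulFun_app, HomOn.map_smul, epsVal_smul, appLE_ores]
  rw [appLE_appLE he W f ((e.preimage_mono (hV x hxU)).trans (preimage_preimage he W).le)]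
  refine fun_ext (fun t : W ↦ e ⁻¹ᵁ V x hxU ⊓ W' t) (fun t ↦ inf_le_left) (fun t ht ↦ ?_) fun t ↦ ?_
  · exact Opens.mem_iSup.2 ⟨⟨t, (preimage_preimage he W).le (e.preimage_mono (hV x hxU) ht)⟩, ht,
      hx _ _⟩
  · have e1 := key t (V x hxU ⊓ V _ (hW t.2)) inf_le_right (mres P inf_le_left (s x hxU))
    rw [ρ.map_res _ (hV x hxU) _ inf_le_left, σ'.map_res _ (hV x hxU) _ inf_le_left, ← hf t] at e1
    simp only [epsVal_mres, ores_ores] at e1
    rw [map_mul, ores_ores]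
    exact e1.symm

end

end Fermat.Agent.Picard
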