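/-
Functions on `C × T` are determined by their values along the marked section.
-/
import Fermat.Agent.Picard.Rigid.Rig
import Fermat.Agent.Picard.Bridge.ToTri

set_option autoImplicit false

universe u

open CategoryTheory CategoryTheory.Limits AlgebraicGeometry TopologicalSpace Opposite NeronModelInfra
  AlgebraicGeometry.RelPicard
open scoped TensorProduct

namespace Fermat.Agent.Picard

noncomputable section

section Algebra

variable {k : Type u} [Field k] (X : TwoChart k) (R : Type u) [CommRing R] [Algebra k R]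

lemma TwoChart.algebraMap_injective_B : Function.Injective (algebraMap X.B X.W) := by
  refine IsLocalization.injective (M := Submonoid.powers X.y) X.W ?_
  intro z hz
  obtain ⟨n, rfl⟩ := hz
  refine mem_nonZeroDivisors_of_ne_zero (pow_ne_zero n fun h ↦ ?_)
  exact Polynomial.X_ne_zero (R := k) (X.injective_y (by simpa using h))

/-- A pair of functions agreeing on the overlap is constant. -/
lemma TwoChart.exists_eq_algebraMap {a : R ⊗[k] X.A} {b : R ⊗[k] X.B}
    (h : X.resA R a = X.resB R b) :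
    ∃ r : R, a = algebraMap R (R ⊗[k] X.A) r ∧ b = algebraMap R (R ⊗[k] X.B) r := by
  let i : k →ₗ[k] X.A × X.B := (Algebra.linearMap k X.A).prod (Algebra.linearMap k X.B)
  let d : X.A × X.B →ₗ[k] X.W := ((IsScalarTower.toAlgHom k X.A X.W).toLinearMap).coprod
    (-(IsScalarTower.toAlgHom k X.B X.W).toLinearMap)
  have hex : Function.Exact i d := by
    rintro ⟨a, b⟩
    constructor
    · intro hab
      have hab' : algebraMap X.A X.W a = algebraMap X.B X.W b := by
        simpa [d, ← sub_eq_add_neg, sub_eq_zero] using hab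
      obtain ⟨r, rfl⟩ := X.global_const a b hab'
      refine ⟨r, Prod.ext rfl (X.algebraMap_injective_B ?_)⟩
      change algebraMap X.B X.W (algebraMap k X.B r) = algebraMap X.B X.W b
      rw [← hab', ← IsScalarTower.algebraMap_apply, ← IsScalarTower.algebraMap_apply]
    · rintro ⟨r, hr⟩
      obtain ⟨rfl, rfl⟩ := Prod.ext_iff.1 hr
      simp [i, d]
  have hR := Module.Flat.lTensor_exact R hex
  let z : R ⊗[k] (X.A × X.B) := (TensorProduct.prodRight k k R X.A X.B).symm (a, b)
  have hd : LinearMap.lTensor R d = ((Algebra.TensorProduct.map (AlgHom.id k R)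
        (IsScalarTower.toAlgHom k X.A X.W)).toLinearMap.coprod
      (-(Algebra.TensorProduct.map (AlgHom.id k R) (IsScalarTower.toAlgHom k X.B X.W)).toLinearMap)) ∘ₗ
      (TensorProduct.prodRight k k R X.A X.B).toLinearMap := by
    refine TensorProduct.ext' fun r p ↦ ?_
    simp [d, TensorProduct.tmul_add, TensorProduct.tmul_neg]
  have hz : LinearMap.lTensor R d z = 0 := by
    rw [hd]
    simp only [z, LinearMap.comp_apply, LinearEquiv.coe_coe, LinearEquiv.apply_symm_apply,
      LinearMap.coprod_apply, LinearMap.neg_apply, AlgHom.toLinearMap_apply, ← sub_eq_add_neg,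
      sub_eq_zero]
    exact h
  obtain ⟨w, hw⟩ := (hR z).1 hz
  obtain ⟨r, rfl⟩ := (TensorProduct.rid k R).symm.surjective w
  have e := congrArg (TensorProduct.prodRight k k R X.A X.B) hw
  simp only [z, LinearEquiv.apply_symm_apply, TensorProduct.rid_symm_apply, LinearMap.lTensor_tmul,
    TensorProduct.prodRight_tmul, Prod.ext_iff] at e
  refine ⟨r, ?_, ?_⟩
  · rw [← e.1]
    simp [i, Algebra.TensorProduct.algebraMap_apply]
  · rw [← e.2]
    simp [i, Algebra.TensorProduct.algebraMap_apply]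

lemma TwoChart.evalε_algebraMap (r : R) : X.evalε R (algebraMap R (R ⊗[k] X.A) r) = r := by
  simp [TwoChart.evalε, Algebra.TensorProduct.algebraMap_apply]

end Algebra

variable {k : Type u} [Field k] {C : Scheme.{u}} {c : C ⟶ Spec (CommRingCat.of k)}
  {ε : SchemeHomOver (𝟙 (Spec (CommRingCat.of k))) c} (𝓒 : CurveModel c ε)

namespace CurveModel

variable (R : Type u) [CommRing R] [Algebra k R]

lemma rigSection_eq :
    rigSection c (specTo k R) ε = Spec.map (CommRingCat.ofHom (𝓒.X.evalε R)) ≫ 𝓒.chartA.j R := by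
  apply pullback.hom_ext
  · rw [Category.assoc, AffineChart.j_fst, rigSection, pullback.lift_fst, ← 𝓒.ε_eq,
      ← Category.assoc, ← Category.assoc, ← Spec.map_comp, ← Spec.map_comp, ← CommRingCat.ofHom_comp,
      ← CommRingCat.ofHom_comp]
    congr 3
    ext a
    simp [TwoChart.evalε, Algebra.smul_def]
  · rw [Category.assoc, AffineChart.j_snd, rigSection, pullback.lift_snd, ← Spec.map_comp,
      ← CommRingCat.ofHom_comp]
    have : (𝓒.X.evalε R).comp (algebraMap R (R ⊗[k] 𝓒.X.A)) = RingHom.id R :=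
      RingHom.ext fun r ↦ 𝓒.X.evalε_algebraMap R r
    rw [this, CommRingCat.ofHom_id, Spec.map_id]

lemma rigSection_preimage_WA : rigSection c (specTo k R) ε ⁻¹ᵁ 𝓒.WA R = ⊤ := by
  rw [𝓒.rigSection_eq R, Scheme.Hom.comp_preimage]
  exact eq_top_iff.2 fun x _ ↦ ⟨_, trivial, rfl⟩

/-- Restriction along the marked section on the first chart is evaluation at `ε`. -/
lemma rigSection_appLE_φA (a : R ⊗[k] 𝓒.X.A)
    (h : (⊤ : (Spec (CommRingCat.of R)).Opens) ≤ rigSection c (specTo k R) ε ⁻¹ᵁ 𝓒.WA R) :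
    ((rigSection c (specTo k R) ε).appLE (𝓒.WA R) ⊤ h).hom (𝓒.φA R a) =
      (Scheme.ΓSpecIso (CommRingCat.of R)).inv.hom (𝓒.X.evalε R a) := by
  have key : ∀ (f : Spec (CommRingCat.of R) ⟶ pullback c (specTo k R))
      (_ : f = Spec.map (CommRingCat.ofHom (𝓒.X.evalε R)) ≫ 𝓒.chartA.j R) (hle : ⊤ ≤ f ⁻¹ᵁ 𝓒.WA R),
      (f.appLE (𝓒.WA R) ⊤ hle).hom (𝓒.φA R a) =
        (Scheme.ΓSpecIso (CommRingCat.of R)).inv.hom (𝓒.X.evalε R a) := by
    rintro _ rfl hle
    rw [← Scheme.Hom.appLE_comp_appLE _ _ (𝓒.WA R) ⊤ ⊤ (𝓒.chartA.le_preimage_W R)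
      (le_top.trans (by simp)), CommRingCat.hom_comp, RingHom.comp_apply]
    refine (congrArg _ (𝓒.chartA.appLE_φ R a)).trans ?_
    have e := congrArg (fun t ↦ t.hom a)
      (Scheme.ΓSpecIso_inv_naturality (CommRingCat.ofHom (𝓒.X.evalε R)))
    simp only [CommRingCat.hom_comp, RingHom.comp_apply] at e
    refine Eq.trans ?_ e.symm
    rw [Scheme.Hom.appLE, CommRingCat.hom_comp, RingHom.comp_apply]
    exact ores_self _ _
  exact key _ (𝓒.rigSection_eq R) _

include 𝓒 in
/-- A global function vanishing along the section is zero. -/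
lemma eq_zero_of_rigSection (f : Γ(pullback c (specTo k R), ⊤))
    (h : ((rigSection c (specTo k R) ε).appLE ⊤ ⊤
      (Scheme.Hom.preimage_top (rigSection c (specTo k R) ε)).ge).hom f = 0) : f = 0 := by
  obtain ⟨a, ha⟩ := (𝓒.φA R).surjective (ores _ (le_top : 𝓒.WA R ≤ ⊤) f)
  obtain ⟨b, hb⟩ := (𝓒.φB R).surjective (ores _ (le_top : 𝓒.WB R ≤ ⊤) f)
  have hab : 𝓒.X.resA R a = 𝓒.X.resB R b := (𝓒.φW R).injective (by
    rw [← 𝓒.res_φA R, ← 𝓒.res_φB R, ha, hb, ores_ores, ores_ores])
  obtain ⟨r, rfl, rfl⟩ := 𝓒.X.exists_eq_algebraMap R hab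
  have hr : r = 0 := by
    have e := 𝓒.rigSection_appLE_φA R (algebraMap R _ r) (𝓒.rigSection_preimage_WA R).ge
    rw [ha, appLE_ores, h, TwoChart.evalε_algebraMap] at e
    exact (ConcreteCategory.bijective_of_isIso
      (Scheme.ΓSpecIso (CommRingCat.of R)).inv).1 (e.symm.trans (map_zero _).symm)
  subst hr
  rw [map_zero, map_zero] at ha hb
  refine fun_ext (fun i : Bool ↦ bif i then 𝓒.WA R else 𝓒.WB R) (fun i ↦ le_top)
    (by rw [iSup_bool_eq, Bool.cond_true, Bool.cond_false, 𝓒.WA_sup_WB]) fun i ↦ ?_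
  rw [map_zero]
  cases i
  · exact hb.symm
  · exact ha.symm

end CurveModel

variable {T T' : Scheme.{u}} {t : T ⟶ Spec (CommRingCat.of k)} {t' : T' ⟶ Spec (CommRingCat.of k)}

/-- The change of base square is cartesian. -/
lemma isPullback_baseChangeSnd (ψ : SchemeHomOver t' t) :
    IsPullback (baseChangeSnd c ψ) (pullback.snd c t') (pullback.snd c t) ψ.1 := by
  refine IsPullback.of_right (h₁₂ := pullback.fst c t) (h₂₂ := t) ?_ (pullback.lift_snd _ _ _)
    (IsPullback.of_hasPullback c t).flip.flip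
  rw [show baseChangeSnd c ψ ≫ pullback.fst c t = pullback.fst c t' from
    (pullback.lift_fst _ _ _).trans (Category.comp_id _), ψ.2]
  exact IsPullback.of_hasPullback c t'

lemma isOpenImmersion_baseChangeSnd (ψ : SchemeHomOver t' t) [IsOpenImmersion ψ.1] :
    IsOpenImmersion (baseChangeSnd c ψ) :=
  MorphismProperty.of_isPullback (P := @IsOpenImmersion) (isPullback_baseChangeSnd ψ).flip
    (inferInstanceAs (IsOpenImmersion ψ.1))

lemma range_baseChangeSnd (ψ : SchemeHomOver t' t) :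
    Set.range (baseChangeSnd c ψ) = pullback.snd c t ⁻¹' Set.range ψ.1 := by
  have h := isPullback_baseChangeSnd (c := c) ψ
  rw [← h.isoPullback_hom_fst]
  rw [show ⇑(h.isoPullback.hom ≫ pullback.fst (pullback.snd c t) ψ.1) =
    ⇑(pullback.fst (pullback.snd c t) ψ.1) ∘ ⇑h.isoPullback.hom from
      funext fun x ↦ Scheme.Hom.comp_apply _ _ _,
    Set.range_comp, Set.range_eq_univ.2 h.isoPullback.hom.surjective, Set.image_univ,
    Scheme.Pullback.range_fst]

lemma rigSection_snd (t : T ⟶ Spec (CommRingCat.of k)) :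
    rigSection c t ε ≫ pullback.snd c t = 𝟙 T := pullback.lift_snd _ _ _

include 𝓒 in
/-- Functions on `C × W` are determined along the section. -/
theorem epsInjective (t : T ⟶ Spec (CommRingCat.of k)) :
    EpsInjective (rigSection c t ε) (pullback.snd c t) := by
  intro W f hW hf
  -- affine opens inside `W`
  refine fun_ext (fun V : {V : T.affineOpens // V.1 ≤ W} ↦ pullback.snd c t ⁻¹ᵁ V.1.1)
    (fun V ↦ Scheme.Hom.preimage_mono _ V.2) ?_ fun V ↦ ?_
  · intro x hx
    obtain ⟨U, hU, hxU, hUW⟩ := exists_isAffineOpen_mem_and_subset (U := W)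
      (show pullback.snd c t x ∈ W from hx)
    exact Opens.mem_iSup.2 ⟨⟨⟨U, hU⟩, hUW⟩, hxU⟩
  rw [map_zero]
  obtain ⟨⟨U, hU⟩, hUW⟩ := V
  let R := Γ(T, U)
  obtain ⟨σ, hσ⟩ := Spec.map_surjective (hU.fromSpec ≫ t)
  let : Algebra k R := σ.hom.toAlgebra
  let ψ : SchemeHomOver (specTo k R) t :=
    ⟨hU.fromSpec, by rw [← hσ]; rfl⟩
  have : IsOpenImmersion ψ.1 := hU.isOpenImmersion_fromSpec
  let g := baseChangeSnd c ψ
  have : IsOpenImmersion g := isOpenImmersion_baseChangeSnd ψ
  have hr : g.opensRange = pullback.snd c t ⁻¹ᵁ U := by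
    apply Opens.ext
    refine (range_baseChangeSnd ψ).trans ?_
    rw [show Set.range ψ.1 = (U : Set T) from hU.range_fromSpec]
    rfl
  have hg : (⊤ : (pullback c (specTo k R)).Opens) ≤ g ⁻¹ᵁ (pullback.snd c t ⁻¹ᵁ U) := by
    rw [← hr]; simp
  have : IsIso (g.app (pullback.snd c t ⁻¹ᵁ U)) := g.isIso_app _ hr.ge
  set f' := ores (pullback c t) ((pullback.snd c t).preimage_mono hUW) f
  have h0 : (g.appLE (pullback.snd c t ⁻¹ᵁ U) ⊤ hg).hom f' = 0 := by
    refine 𝓒.eq_zero_of_rigSection R _ ?_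
    rw [← RingHom.comp_apply, ← CommRingCat.hom_comp, Scheme.Hom.appLE_comp_appLE]
    have key : ∀ (q : Spec (CommRingCat.of R) ⟶ pullback c t) (_ : q = ψ.1 ≫ rigSection c t ε)
        (hle : ⊤ ≤ q ⁻¹ᵁ (pullback.snd c t ⁻¹ᵁ U)),
        (q.appLE (pullback.snd c t ⁻¹ᵁ U) ⊤ hle).hom f' = 0 := by
      rintro _ rfl hle
      have hle2 : (⊤ : (Spec (CommRingCat.of R)).Opens) ≤ ψ.1 ⁻¹ᵁ U := by
        intro x _
        exact hU.range_fromSpec.le ⟨x, rfl⟩
      have hle1 : U ≤ rigSection c t ε ⁻¹ᵁ (pullback.snd c t ⁻¹ᵁ U) :=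
        (preimage_preimage (rigSection_snd t) U).ge
      rw [← Scheme.Hom.appLE_comp_appLE _ _ (pullback.snd c t ⁻¹ᵁ U) U ⊤ hle1 hle2,
        CommRingCat.hom_comp, RingHom.comp_apply, appLE_ores,
        ← ores_appLE (rigSection c t ε) hW hUW f, hf, map_zero, map_zero]
    exact key _ (rigSection_baseChangeSnd c ε ψ) _
  refine (ConcreteCategory.bijective_of_isIso (g.app (pullback.snd c t ⁻¹ᵁ U))).1 ?_
  refine Eq.trans ?_ (map_zero (g.app (pullback.snd c t ⁻¹ᵁ U)).hom).symm
  have e1 := congrArg (ores _ (le_top : g ⁻¹ᵁ (pullback.snd c t ⁻¹ᵁ U) ≤ ⊤)) h0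
  rw [map_zero, Scheme.Hom.appLE, CommRingCat.hom_comp, RingHom.comp_apply] at e1
  exact ((ores_ores _ _ _).trans (ores_self _ _)).symm.trans e1

end

end Fermat.Agent.Picard
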