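/-
Zariski descent for rigidified line bundles on `C × T`.
-/
import Fermat.Agent.Picard.Rigid.Functions

set_option autoImplicit false

universe u

open CategoryTheory CategoryTheory.Limits AlgebraicGeometry TopologicalSpace Opposite NeronModelInfra
  AlgebraicGeometry.RelPicard

namespace Fermat.Agent.Picard

noncomputable section

section Transfer

variable {X T Y T' : Scheme.{u}} (g : Y ⟶ X) (ψ : T' ⟶ T) (e : T ⟶ X) (e' : T' ⟶ Y)
  [IsOpenImmersion g] [IsOpenImmersion ψ]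

/-- Rigidifications pass to the pushforward along an open immersion. -/
lemma exists_rig_pushforward (hsq : e' ≫ g = ψ ≫ e) (hr : e ⁻¹ᵁ g.opensRange ≤ ψ.opensRange)
    {M : Y.Modules} {ρ' : HomOn M (epsTarget e') ⊤} (hρ' : IsRig e' ρ') :
    ∃ ρ : HomOn ((Scheme.Modules.pushforward g).obj M) (epsTarget e) g.opensRange, IsRig e ρ := by
  have heq : ∀ V : X.Opens, e' ⁻¹ᵁ (g ⁻¹ᵁ V) = ψ ⁻¹ᵁ (e ⁻¹ᵁ V) := fun V ↦ by
    rw [← Scheme.Hom.comp_preimage, hsq, Scheme.Hom.comp_preimage]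
  let τ : ∀ V : X.Opens, Γ(T, e ⁻¹ᵁ V) →+* Γ(T', e' ⁻¹ᵁ (g ⁻¹ᵁ V)) := fun V ↦
    (ψ.appLE _ _ (heq V).le).hom
  have hτ : ∀ V, V ≤ g.opensRange → Function.Bijective (τ V) := fun V hV ↦ by
    have : IsIso (ψ.app (e ⁻¹ᵁ V)) := ψ.isIso_app _ ((e.preimage_mono hV).trans hr)
    have : IsIso (ψ.appLE (e ⁻¹ᵁ V) (e' ⁻¹ᵁ (g ⁻¹ᵁ V)) (heq V).le) := by
      have : IsIso (T'.presheaf.map (homOfLE (heq V).le).op) := by
        have : IsIso (homOfLE (heq V).le) := ⟨homOfLE (heq V).ge, Subsingleton.elim _ _,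
          Subsingleton.elim _ _⟩
        infer_instance
      rw [Scheme.Hom.appLE]
      infer_instance
    exact ConcreteCategory.bijective_of_isIso (ψ.appLE _ _ (heq V).le)
  let val : ∀ V (_ : V ≤ g.opensRange), Γ((Scheme.Modules.pushforward g).obj M, V) →
      Γ(epsTarget e, V) := fun V hV m ↦ ofEps e ((RingEquiv.ofBijective (τ V) (hτ V hV)).symm
        (epsVal e' (ρ'.app (g ⁻¹ᵁ V) le_top (show Γ(M, g ⁻¹ᵁ V) from m))))
  have hval : ∀ V hV m, τ V (epsVal e (val V hV m)) =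
      epsVal e' (ρ'.app (g ⁻¹ᵁ V) le_top (show Γ(M, g ⁻¹ᵁ V) from m)) := fun V hV m ↦
    (RingEquiv.ofBijective (τ V) (hτ V hV)).apply_symm_apply _
  refine ⟨{ app := val, map_add := ?_, map_smul := ?_, map_res := ?_ }, fun V hV s hs ↦ ?_⟩
  · intro V hV m m'
    apply epsVal_injective e
    apply (hτ V hV).1
    have e1 : τ V (epsVal e (val V hV m + val V hV m')) =
        τ V (epsVal e (val V hV m)) + τ V (epsVal e (val V hV m')) := map_add (τ V) _ _
    rw [e1, hval V hV, hval V hV, hval V hV]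
    exact congrArg (epsVal e') (ρ'.map_add _ le_top (show Γ(M, g ⁻¹ᵁ V) from m)
      (show Γ(M, g ⁻¹ᵁ V) from m'))
  · intro V hV r m
    apply epsVal_injective e
    apply (hτ V hV).1
    rw [epsVal_smul, map_mul, hval V hV, hval V hV]
    refine (congrArg (epsVal e') (ρ'.map_smul _ le_top ((g.app V).hom r)
      (show Γ(M, g ⁻¹ᵁ V) from m))).trans ?_
    rw [epsVal_smul]
    congr 1
    change _ = (ψ.appLE _ _ (heq V).le).hom _
    rw [← Scheme.Hom.appLE_eq_app g, ← RingHom.comp_apply, ← RingHom.comp_apply,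
      ← CommRingCat.hom_comp, ← CommRingCat.hom_comp, Scheme.Hom.appLE_comp_appLE,
      Scheme.Hom.appLE_comp_appLE]
    have key : ∀ (f f' : T' ⟶ X) (_ : f = f') (h : e' ⁻¹ᵁ (g ⁻¹ᵁ V) ≤ f ⁻¹ᵁ V)
        (h' : e' ⁻¹ᵁ (g ⁻¹ᵁ V) ≤ f' ⁻¹ᵁ V), (f.appLE V _ h).hom r = (f'.appLE V _ h').hom r := by
      rintro f _ rfl h h'
      rfl
    exact key _ _ hsq _ _
  · intro V hV W h m
    apply epsVal_injective e
    apply (hτ W (h.trans hV)).1
    rw [hval W (h.trans hV), epsVal_mres]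
    refine (congrArg (epsVal e') (ρ'.map_res _ le_top _ (g.preimage_mono h)
      (show Γ(M, g ⁻¹ᵁ V) from m))).trans ?_
    rw [epsVal_mres, ← hval V hV m]
    simp only [τ]
    rw [ores_appLE, appLE_ores]
  · have hu := hρ' (g ⁻¹ᵁ V) le_top _ (isFrame_of_pushforward g M hV s hs)
    rw [← hval V hV s] at hu
    obtain ⟨b, hb⟩ := isUnit_iff_exists_inv.1 hu
    obtain ⟨a, rfl⟩ := (hτ V hV).2 b
    exact IsUnit.of_mul_eq_one a ((hτ V hV).1 (by rw [map_mul, hb, map_one]))

end Transfer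

variable {k : Type u} [Field k] {C : Scheme.{u}} {c : C ⟶ Spec (CommRingCat.of k)}
  {ε : SchemeHomOver (𝟙 (Spec (CommRingCat.of k))) c}

instance {T T' : Scheme.{u}} {t : T ⟶ Spec (CommRingCat.of k)} {t' : T' ⟶ Spec (CommRingCat.of k)}
    (ψ : SchemeHomOver t' t) [IsOpenImmersion ψ.1] : IsOpenImmersion (baseChangeSnd c ψ) :=
  isOpenImmersion_baseChangeSnd ψ

variable {T : Scheme.{u}} {t : T ⟶ Spec (CommRingCat.of k)}

lemma opensRange_baseChangeSnd {T' : Scheme.{u}} {t' : T' ⟶ Spec (CommRingCat.of k)}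
    (ψ : SchemeHomOver t' t) [IsOpenImmersion ψ.1] :
    (baseChangeSnd c ψ).opensRange = pullback.snd c t ⁻¹ᵁ ψ.1.opensRange :=
  Opens.ext (range_baseChangeSnd ψ)

lemma exists_rig_of_rigidified (M : RigidifiedLineBundle c ε t) :
    ∃ ρ : HomOn M.L (epsTarget (rigSection c t ε)) ⊤, IsRig (rigSection c t ε) ρ :=
  exists_rig M.isInvertible M.rigidified.some

variable {ι : Type*} {S : ι → Scheme.{u}} {s : ∀ i, S i ⟶ Spec (CommRingCat.of k)}
  (ψ : ∀ i, SchemeHomOver (s i) t) [∀ i, IsOpenImmersion (ψ i).1]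
  (hcov : ∀ x : T, ∃ i, x ∈ Set.range (ψ i).1)

include hcov in
lemma iSup_pieces : ⨆ i, pullback.snd c t ⁻¹ᵁ (ψ i).1.opensRange = ⊤ :=
  eq_top_iff.2 fun x _ ↦ by
    obtain ⟨i, hi⟩ := hcov (pullback.snd c t x)
    exact Opens.mem_iSup.2 ⟨i, hi⟩

include hcov in
/-- Rigidified line bundles which are locally isomorphic are isomorphic. -/
theorem nonempty_iso_of_local (hK : EpsInjective (rigSection c t ε) (pullback.snd c t))
    (M M' : RigidifiedLineBundle c ε t)
    (h : ∀ i, Nonempty ((M.pullbackAlong (ψ i)).L ≅ (M'.pullbackAlong (ψ i)).L)) :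
    Nonempty (M.L ≅ M'.L) := by
  obtain ⟨ρ, hρ⟩ := exists_rig_of_rigidified M
  obtain ⟨σ, hσ⟩ := exists_rig_of_rigidified M'
  let e := rigSection c t ε
  have he : e ≫ pullback.snd c t = 𝟙 T := rigSection_snd t
  let U : ι → (pullback c t).Opens := fun i ↦ pullback.snd c t ⁻¹ᵁ (ψ i).1.opensRange
  have hloc : ∀ i, ∃ α : HomOn M.L M'.L (U i), α.IsIso ∧
      α.comp (σ.res le_top) = ρ.res le_top := fun i ↦ by
    obtain ⟨F, hF⟩ := exists_homOn_of_pullback_iso (baseChangeSnd c (ψ i)) M.isInvertible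
      M'.isInvertible (h i).some
    exact exists_rig_iso he rfl (invOn_of_isInvertible M.isInvertible _)
      (hF.res (opensRange_baseChangeSnd (ψ i)).ge) (hρ.res le_top) (hσ.res le_top)
  choose α hα hαρ using hloc
  have hagree : ∀ i j V (hi : V ≤ U i) (hj : V ≤ U j) m, (α i).app V hi m = (α j).app V hj m := by
    intro i j V hi hj m
    have := eq_of_rig he hK (W := (ψ i).1.opensRange ⊓ (ψ j).1.opensRange) (U := U i ⊓ U j)
      (Scheme.Hom.preimage_inf (pullback.snd c t)).symm (invOn_of_isInvertible M.isInvertible _)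
      (α := (α i).res inf_le_left) (β := (α j).res inf_le_right) ((hα i).res _)
      (σ := σ.res le_top) (hσ.res _) (by
        ext Z hZ n
        have e1 := congrFun (congrFun (congrFun (congrArg HomOn.app (hαρ i)) Z)
          (hZ.trans inf_le_left)) n
        have e2 := congrFun (congrFun (congrFun (congrArg HomOn.app (hαρ j)) Z)
          (hZ.trans inf_le_right)) n
        exact e1.trans e2.symm)
    exact congrFun (congrFun (congrFun (congrArg HomOn.app this) V) (le_inf hi hj)) m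
  obtain ⟨G, hG, -⟩ := HomOn.existsUnique_glueOn (U := ⊤) U (fun i ↦ le_top)
    (iSup_pieces ψ hcov).ge α hagree
  have hGiso : G.IsIso := G.isIso_of_cover U (fun i ↦ le_top) (iSup_pieces ψ hcov).ge fun i ↦ by
    rw [hG i]
    exact hα i
  obtain ⟨φ, -⟩ := hGiso.exists_iso M.isInvertible
  exact ⟨φ⟩

omit [∀ i, IsOpenImmersion (ψ i).1] in
lemma overlap_over (i j : ι) :
    pullback.snd (ψ i).1 (ψ j).1 ≫ s j = pullback.fst (ψ i).1 (ψ j).1 ≫ s i :=
  (congrArg (pullback.snd (ψ i).1 (ψ j).1 ≫ ·) (ψ j).2.symm).trans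
    ((pullback.condition_assoc t).symm.trans (congrArg (pullback.fst (ψ i).1 (ψ j).1 ≫ ·) (ψ i).2))

include hcov in
/-- Rigidified line bundles on an open cover glue. -/
theorem exists_rigidified_of_local (hK : EpsInjective (rigSection c t ε) (pullback.snd c t))
    (M : ∀ i, RigidifiedLineBundle c ε (s i))
    (hM : ∀ i j, Nonempty (
      ((M i).pullbackAlong (⟨pullback.fst (ψ i).1 (ψ j).1, rfl⟩ :
        SchemeHomOver (pullback.fst (ψ i).1 (ψ j).1 ≫ s i) (s i))).L ≅
      ((M j).pullbackAlong (⟨pullback.snd (ψ i).1 (ψ j).1, overlap_over ψ i j⟩ :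
        SchemeHomOver (pullback.fst (ψ i).1 (ψ j).1 ≫ s i) (s j))).L)) :
    ∃ L : RigidifiedLineBundle c ε t, ∀ i, Nonempty ((L.pullbackAlong (ψ i)).L ≅ (M i).L) := by
  let e := rigSection c t ε
  have he : e ≫ pullback.snd c t = 𝟙 T := rigSection_snd t
  let g : ∀ i, pullback c (s i) ⟶ pullback c t := fun i ↦ baseChangeSnd c (ψ i)
  let W : ι → T.Opens := fun i ↦ (ψ i).1.opensRange
  let U : ι → (pullback c t).Opens := fun i ↦ pullback.snd c t ⁻¹ᵁ W i
  have hgU : ∀ i, (g i).opensRange = U i := fun i ↦ opensRange_baseChangeSnd (ψ i)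
  let P : ι → (pullback c t).Modules := fun i ↦ (Scheme.Modules.pushforward (g i)).obj (M i).L
  have hP : ∀ i, InvOn (P i) (U i) := fun i ↦
    (invOn_pushforward (g i) (M i).isInvertible).mono (hgU i).ge
  -- rigidifications
  have hrig : ∀ i, ∃ ρ : HomOn (P i) (epsTarget e) (U i), IsRig e ρ := fun i ↦ by
    obtain ⟨ρ', hρ'⟩ := exists_rig_of_rigidified (M i)
    obtain ⟨ρ, hρ⟩ := exists_rig_pushforward (g i) (ψ i).1 e (rigSection c (s i) ε)
      (rigSection_baseChangeSnd c ε (ψ i))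
      (by rw [hgU i]; exact (preimage_preimage he (W i)).le) hρ'
    exact ⟨ρ.res (hgU i).ge, hρ.res _⟩
  choose ρ hρ using hrig
  -- transition maps
  have htrans : ∀ i j, ∃ α : HomOn (P i) (P j) (U i ⊓ U j), α.IsIso ∧
      α.comp ((ρ j).res inf_le_right) = (ρ i).res inf_le_left := fun i j ↦ by
    let hi : SchemeHomOver (pullback.fst (ψ i).1 (ψ j).1 ≫ s i) (s i) := ⟨_, rfl⟩
    let hj : SchemeHomOver (pullback.fst (ψ i).1 (ψ j).1 ≫ s i) (s j) :=
      ⟨pullback.snd (ψ i).1 (ψ j).1, overlap_over ψ i j⟩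
    let ψij : SchemeHomOver (pullback.fst (ψ i).1 (ψ j).1 ≫ s i) t := postComp (ψ i) hi
    have : IsOpenImmersion hi.1 := inferInstanceAs (IsOpenImmersion (pullback.fst _ _))
    have : IsOpenImmersion hj.1 := inferInstanceAs (IsOpenImmersion (pullback.snd _ _))
    have : IsOpenImmersion ψij.1 :=
      inferInstanceAs (IsOpenImmersion (pullback.fst (ψ i).1 (ψ j).1 ≫ (ψ i).1))
    have hr : (baseChangeSnd c ψij).opensRange = U i ⊓ U j := by
      rw [opensRange_baseChangeSnd]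
      change _ = pullback.snd c t ⁻¹ᵁ W i ⊓ pullback.snd c t ⁻¹ᵁ W j
      rw [← Scheme.Hom.preimage_inf]
      congr 1
      exact Opens.ext (IsOpenImmersion.range_pullback_to_base_of_left (ψ i).1 (ψ j).1)
    obtain ⟨F, hF⟩ := exists_homOn_of_pullback_iso' (g i) (g j) (baseChangeSnd c hi)
      (baseChangeSnd c hj) (baseChangeSnd c ψij) (baseChangeSnd_comp c (ψ i) hi)
      ((baseChangeSnd_comp c (ψ j) hj).trans (congrArg (baseChangeSnd c)
        (Subtype.ext pullback.condition.symm)))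
      (M i).isInvertible (M j).isInvertible (hM i j).some
    exact exists_rig_iso he (Scheme.Hom.preimage_inf (pullback.snd c t)).symm ((hP i).mono inf_le_left)
      (hF.res hr.ge) ((hρ i).res inf_le_left) ((hρ j).res inf_le_right)
  choose α hα hαρ using htrans
  have hαρ' : ∀ i j V (hi : V ≤ U i) (hj : V ≤ U j) m,
      (ρ j).app V hj ((α i j).app V (le_inf hi hj) m) = (ρ i).app V hi m := fun i j V hi hj m ↦
    congrFun (congrFun (congrFun (congrArg HomOn.app (hαρ i j)) V) (le_inf hi hj)) m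
  have hrefl : ∀ i V hV m, (α i i).app V hV m = m := fun i V hV m ↦ by
    have := eq_of_rig he hK (U := U i ⊓ U i) (W := W i ⊓ W i) (Scheme.Hom.preimage_inf (pullback.snd c t)).symm
      ((hP i).mono inf_le_left) (hα i i) (β := HomOn.id (P i) _)
      (σ := (ρ i).res inf_le_left) ((hρ i).res _) (hαρ i i)
    exact congrFun (congrFun (congrFun (congrArg HomOn.app this) V) hV) m
  have hcoc : ∀ i j l V (hi : V ≤ U i) (hj : V ≤ U j) (hl : V ≤ U l) m,
      (α j l).app V (le_inf hj hl) ((α i j).app V (le_inf hi hj) m) =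
        (α i l).app V (le_inf hi hl) m := fun i j l V hi hj hl m ↦ by
    let Z := U i ⊓ U j ⊓ U l
    have hZi : Z ≤ U i := inf_le_left.trans inf_le_left
    have hZj : Z ≤ U j := inf_le_left.trans inf_le_right
    have hZl : Z ≤ U l := inf_le_right
    have := eq_of_rig he hK (U := Z) (W := W i ⊓ W j ⊓ W l)
      (by rw [Scheme.Hom.preimage_inf, Scheme.Hom.preimage_inf])
      ((hP i).mono hZi)
      (α := ((α i j).res (le_inf hZi hZj)).comp ((α j l).res (le_inf hZj hZl)))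
      (((hα i j).res _).comp ((hα j l).res _))
      (β := (α i l).res (le_inf hZi hZl)) (σ := (ρ l).res hZl) ((hρ l).res _) (by
        ext Y hY n
        simp only [HomOn.comp_app, HomOn.res_app]
        rw [hαρ' j l Y (hY.trans hZj) (hY.trans hZl), hαρ' i j Y (hY.trans hZi) (hY.trans hZj),
          hαρ' i l Y (hY.trans hZi) (hY.trans hZl)])
    exact congrFun (congrFun (congrFun (congrArg HomOn.app this) V)
      (le_inf (le_inf hi hj) hl)) m
  obtain ⟨L, hL, β, hβ, hαβ⟩ := exists_glue_modules U (iSup_pieces ψ hcov) P hP α hrefl hcoc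
  obtain ⟨σ, hσ, -⟩ := HomOn.existsUnique_glueOn (U := ⊤) U (fun i ↦ le_top)
    (iSup_pieces ψ hcov).ge (fun i ↦ (β i).comp (ρ i)) fun i j V hi hj m ↦ by
      simp only [HomOn.comp_app]
      rw [← hαβ i j V hi hj m, hαρ' i j]
  have hσrig : IsRig e σ := isRig_of_cover σ U (fun i ↦ le_top) (iSup_pieces ψ hcov).ge fun i ↦ by
    rw [hσ i]
    exact (hρ i).comp (hβ i)
  refine ⟨⟨L, hL, nonempty_iso_of_rig hL hσrig⟩, fun i ↦ ?_⟩
  exact nonempty_pullback_iso (g i) hL ((hβ i).res (hgU i).le)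

end

end Fermat.Agent.Picard
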